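/-
S25 LIB candidate (helper3010): base change of LINE BUNDLES is detected by generation.

Main results (on the frozen `Defs`):
* `isBaseChange_of_invertible_of_span` (Mathlib-only): a `B`-linear map from an invertible
  `B`-module to an invertible `B'`-module whose image generates the target over `B'` is a base
  change (a surjection between invertible modules is bijective).
* `SemiUniv ψ j`: the one-chart universal property used by the frozen `BaseChangeData`
  (`univ₁`, `univ₂`); `SemiUniv.span_eq_top`, `semiUniv_of_invertible_of_span`,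
  `semiUniv_iff_isBaseChange`-style bridge `SemiUniv.isBaseChange` / `semiUniv_of_isBaseChange`.
* `isBC_of_span`: semilinear maps `j₁, j₂, j₁₂` between line bundles over two-charts, compatible
  with the restriction maps, whose images generate the chart modules, exhibit the target as the
  base change (`GluedModule.IsBC`).  `bcData_span₁/₂/₁₂`: the converse.
* `tensorEquivSMulTop`, `invertible_smul_top`: `I ⊗ N ≃ I • N` for flat `N`; the product of an
  invertible ideal and an invertible module is invertible.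
* `semiUniv_ideal`, `semiUniv_smul_top`: base change of invertible ideals `I ↦ I.map ψ` and of
  `I • N`.
No sorry.
-/
import Fermat.Agent.S25.Defs

set_option autoImplicit false
set_option linter.style.haveILetI false

universe u

namespace Fermat.Agent.S25.Lib.InvSpan

open TensorProduct

/-! ### Mathlib-only: invertible modules and generation -/

section mathlibOnly

variable {B B' : Type*} [CommRing B] [CommRing B'] [Algebra B B']
  {P P' : Type*} [AddCommGroup P] [Module B P] [AddCommGroup P'] [Module B P'] [Module B' P']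
  [IsScalarTower B B' P']

theorem liftBaseChange_surjective_of_span (j : P →ₗ[B] P')
    (hj : Submodule.span B' (Set.range j) = ⊤) :
    Function.Surjective (j.liftBaseChange B') := by
  rw [← LinearMap.range_eq_top, eq_top_iff, ← hj, Submodule.span_le]
  rintro _ ⟨p, rfl⟩
  exact ⟨1 ⊗ₜ p, by simp⟩

/-- A `B`-linear map `j : P → P'` from an invertible `B`-module to an invertible `B'`-module
whose image generates `P'` over `B'` is a base change. -/
theorem isBaseChange_of_invertible_of_span [Module.Invertible B P] [Module.Invertible B' P']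
    (j : P →ₗ[B] P') (hj : Submodule.span B' (Set.range j) = ⊤) : IsBaseChange B' j := by
  have hbij : Function.Bijective (j.liftBaseChange B') :=
    Module.Invertible.bijective_of_surjective (liftBaseChange_surjective_of_span j hj)
  exact IsBaseChange.of_equiv (LinearEquiv.ofBijective _ hbij) (fun x => by simp)

end mathlibOnly

/-! ### Mathlib-only: `I ⊗ N ≃ I • N` -/

section smulTop

variable {B : Type*} [CommRing B] (I : Ideal B) (N : Type*) [AddCommGroup N] [Module B N]

/-- The multiplication map `I ⊗ N → N`. -/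
noncomputable def mulMap : I ⊗[B] N →ₗ[B] N :=
  TensorProduct.lift ((LinearMap.lsmul B N).comp I.subtype)

@[simp] theorem mulMap_tmul (a : I) (n : N) : mulMap I N (a ⊗ₜ n) = (a : B) • n := rfl

theorem range_mulMap : LinearMap.range (mulMap I N) = I • (⊤ : Submodule B N) := by
  apply le_antisymm
  · rintro _ ⟨x, rfl⟩
    induction x using TensorProduct.induction_on with
    | zero => simp
    | tmul a n => exact Submodule.smul_mem_smul a.2 Submodule.mem_top
    | add x y hx hy => rw [map_add]; exact Submodule.add_mem _ hx hy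
  · rw [Submodule.smul_le]
    intro a ha n _
    exact ⟨(⟨a, ha⟩ : I) ⊗ₜ n, rfl⟩

theorem mulMap_injective [Module.Flat B N] : Function.Injective (mulMap I N) := by
  have h : mulMap I N = (TensorProduct.lid B N).toLinearMap ∘ₗ I.subtype.rTensor N := by
    ext a n
    simp [mulMap]
  rw [h]
  exact (TensorProduct.lid B N).injective.comp
    (Module.Flat.rTensor_preserves_injective_linearMap _ I.subtype_injective)

/-- `I ⊗ N ≃ I • N` for flat `N`. -/
noncomputable def tensorEquivSMulTop [Module.Flat B N] :
    I ⊗[B] N ≃ₗ[B] ↥(I • (⊤ : Submodule B N)) :=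
  (LinearEquiv.ofInjective (mulMap I N) (mulMap_injective I N)).trans
    (LinearEquiv.ofEq _ _ (range_mulMap I N))

@[simp] theorem tensorEquivSMulTop_tmul [Module.Flat B N] (a : I) (n : N) :
    ((tensorEquivSMulTop I N (a ⊗ₜ n) : ↥(I • (⊤ : Submodule B N))) : N) = (a : B) • n := rfl

/-- The product of an invertible ideal and an invertible module is an invertible module. -/
theorem invertible_smul_top [Module.Invertible B I] [Module.Invertible B N] :
    Module.Invertible B ↥(I • (⊤ : Submodule B N)) :=
  Module.Invertible.congr (tensorEquivSMulTop I N)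

end smulTop

/-! ### The universal property of the frozen `BaseChangeData` (one chart) -/

section semi

variable {B B' : Type u} [CommRing B] [CommRing B'] (ψ : B →+* B')
  {N N' : Type u} [AddCommGroup N] [Module B N] [AddCommGroup N'] [Module B' N']

/-- The universal property `univ₁`/`univ₂` of the frozen `GluedModule.BaseChangeData`, for one
chart: the `ψ`-semilinear map `j : N → N'` is universal. -/
def SemiUniv (j : N →+ N') : Prop :=
  ∀ (Q : Type u) [AddCommGroup Q] [Module B' Q] (h : N →+ Q),
    (∀ (b : B) (n : N), h (b • n) = ψ b • h n) → ∃! h' : N' →ₗ[B'] Q, ∀ n, h' (j n) = h n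

variable {ψ}

/-- A universal semilinear map generates its target. -/
theorem SemiUniv.span_eq_top {j : N →+ N'} (hj : SemiUniv ψ j) :
    Submodule.span B' (Set.range j) = ⊤ := by
  obtain ⟨h', -, huniq⟩ := hj (N' ⧸ Submodule.span B' (Set.range j)) 0 (by simp)
  have h1 : (Submodule.span B' (Set.range j)).mkQ = h' := huniq _ (fun n => by
    simp only [Submodule.mkQ_apply, AddMonoidHom.zero_apply, Submodule.Quotient.mk_eq_zero]
    exact Submodule.subset_span ⟨n, rfl⟩)
  have h2 : (0 : N' →ₗ[B'] N' ⧸ Submodule.span B' (Set.range j)) = h' := huniq _ (fun n => by simp)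
  rw [← Submodule.ker_mkQ (Submodule.span B' (Set.range j)), h1, ← h2, LinearMap.ker_zero]

/-- Mathlib's `IsBaseChange` gives the frozen universal property. -/
theorem semiUniv_of_isBaseChange (j : N →+ N')
    (hjs : ∀ (b : B) (n : N), j (b • n) = ψ b • j n)
    (hbc : letI : Algebra B B' := ψ.toAlgebra
      letI : Module B N' := Module.compHom N' ψ
      haveI : IsScalarTower B B' N' := ⟨fun b c n => by
        change (ψ b * c) • n = ψ b • c • n
        rw [mul_smul]⟩
      IsBaseChange B' ({ toFun := j, map_add' := j.map_add, map_smul' := hjs } : N →ₗ[B] N')) :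
    SemiUniv ψ j := by
  letI : Algebra B B' := ψ.toAlgebra
  letI : Module B N' := Module.compHom N' ψ
  haveI : IsScalarTower B B' N' := ⟨fun b c n => by
    change (ψ b * c) • n = ψ b • c • n
    rw [mul_smul]⟩
  intro Q _ _ h hh
  letI : Module B Q := Module.compHom Q ψ
  haveI : IsScalarTower B B' Q := ⟨fun b c n => by
    change (ψ b * c) • n = ψ b • c • n
    rw [mul_smul]⟩
  let hl : N →ₗ[B] Q := { toFun := h, map_add' := h.map_add, map_smul' := hh }
  refine ⟨hbc.lift hl, fun n => hbc.lift_eq hl n, fun g hg => ?_⟩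
  exact hbc.algHom_ext' _ _ (LinearMap.ext fun n => by
    simp only [LinearMap.comp_apply, LinearMap.restrictScalars_apply]
    rw [hbc.lift_eq]
    exact hg n)

/-- A semilinear map from an invertible `B`-module to an invertible `B'`-module whose image
generates the target is universal. -/
theorem semiUniv_of_invertible_of_span [Module.Invertible B N] [Module.Invertible B' N']
    (j : N →+ N') (hjs : ∀ (b : B) (n : N), j (b • n) = ψ b • j n)
    (hj : Submodule.span B' (Set.range j) = ⊤) : SemiUniv ψ j := by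
  letI : Algebra B B' := ψ.toAlgebra
  letI : Module B N' := Module.compHom N' ψ
  haveI : IsScalarTower B B' N' := ⟨fun b c n => by
    change (ψ b * c) • n = ψ b • c • n
    rw [mul_smul]⟩
  exact semiUniv_of_isBaseChange j hjs
    (isBaseChange_of_invertible_of_span
      ({ toFun := j, map_add' := j.map_add, map_smul' := hjs } : N →ₗ[B] N') hj)

end semi

/-! ### Glued level: line bundles -/

section glued

open GluedModule

variable {R R' : Type u} [CommRing R] [CommRing R'] {φ : R →+* R'}
  {𝔹 : TwoChart R} {𝔹' : TwoChart R'} (Ψ : TwoChart.Hom φ 𝔹 𝔹')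
  (N : GluedModule 𝔹) (N' : GluedModule 𝔹')

/-- **Base change of line bundles is detected by generation.**  Semilinear maps between line
bundles, compatible with the restriction maps, whose images generate the two chart modules,
exhibit the target as the base change of the source. -/
theorem isBC_of_span (hN : N.IsLineBundle) (hN' : N'.IsLineBundle)
    (j₁ : N.N₁ →+ N'.N₁) (j₂ : N.N₂ →+ N'.N₂) (j₁₂ : N.N₁₂ →+ N'.N₁₂)
    (j₁_smul : ∀ (b : 𝔹.B₁) (n : N.N₁), j₁ (b • n) = Ψ.ψ₁ b • j₁ n)
    (j₂_smul : ∀ (b : 𝔹.B₂) (n : N.N₂), j₂ (b • n) = Ψ.ψ₂ b • j₂ n)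
    (j₁₂_smul : ∀ (b : 𝔹.B₁₂) (n : N.N₁₂), j₁₂ (b • n) = Ψ.ψ₁₂ b • j₁₂ n)
    (comm₁ : ∀ n, j₁₂ (N.ι₁ n) = N'.ι₁ (j₁ n))
    (comm₂ : ∀ n, j₁₂ (N.ι₂ n) = N'.ι₂ (j₂ n))
    (span₁ : Submodule.span 𝔹'.B₁ (Set.range j₁) = ⊤)
    (span₂ : Submodule.span 𝔹'.B₂ (Set.range j₂) = ⊤) :
    IsBC Ψ N N' := by
  haveI := hN.inv₁
  haveI := hN.inv₂
  haveI := hN'.inv₁
  haveI := hN'.inv₂
  exact ⟨{ j₁ := j₁, j₂ := j₂, j₁₂ := j₁₂, j₁_smul := j₁_smul, j₂_smul := j₂_smul,
           j₁₂_smul := j₁₂_smul, comm₁ := comm₁, comm₂ := comm₂,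
           univ₁ := semiUniv_of_invertible_of_span j₁ j₁_smul span₁,
           univ₂ := semiUniv_of_invertible_of_span j₂ j₂_smul span₂ }⟩

variable {Ψ N N'}

/-- The first chart map of a base change generates. -/
theorem bcData_span₁ (D : BaseChangeData Ψ N N') :
    Submodule.span 𝔹'.B₁ (Set.range D.j₁) = ⊤ :=
  SemiUniv.span_eq_top (ψ := Ψ.ψ₁) (j := D.j₁) D.univ₁

/-- The second chart map of a base change generates. -/
theorem bcData_span₂ (D : BaseChangeData Ψ N N') :
    Submodule.span 𝔹'.B₂ (Set.range D.j₂) = ⊤ :=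
  SemiUniv.span_eq_top (ψ := Ψ.ψ₂) (j := D.j₂) D.univ₂

/-- The overlap map of a base change generates. -/
theorem bcData_span₁₂ (D : BaseChangeData Ψ N N') :
    Submodule.span 𝔹'.B₁₂ (Set.range D.j₁₂) = ⊤ := by
  rw [eq_top_iff]
  intro y _
  obtain ⟨n, m, rfl⟩ := N'.surj₁ y
  refine Submodule.smul_mem _ _ ?_
  have h : n ∈ Submodule.span 𝔹'.B₁ (Set.range D.j₁) := by rw [bcData_span₁ D]; trivial
  refine Submodule.span_induction (p := fun n _ => N'.ι₁ n ∈ Submodule.span 𝔹'.B₁₂ (Set.range D.j₁₂))
    ?_ ?_ ?_ ?_ h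
  · rintro _ ⟨x, rfl⟩
    rw [← D.comm₁]
    exact Submodule.subset_span ⟨_, rfl⟩
  · rw [map_zero]; exact Submodule.zero_mem _
  · intro x y _ _ hx hy
    rw [map_add]; exact Submodule.add_mem _ hx hy
  · intro b x _ hx
    rw [N'.ι₁_smul]; exact Submodule.smul_mem _ _ hx

end glued

/-! ### Base change of invertible ideals and of `I • N` (one chart) -/

section ideal

variable {B B' : Type u} [CommRing B] [CommRing B'] (ψ : B →+* B') (I : Ideal B) (I' : Ideal B')

/-- The restriction of `ψ` to ideals `I → I'` (where `ψ(I) ⊆ I'`). -/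
def idealMap (h : I.map ψ ≤ I') : ↥I →+ ↥I' where
  toFun a := ⟨ψ a, h (Ideal.mem_map_of_mem ψ a.2)⟩
  map_zero' := Subtype.ext (map_zero ψ)
  map_add' _ _ := Subtype.ext (map_add ψ _ _)

@[simp] theorem idealMap_coe (h : I.map ψ ≤ I') (a : I) :
    ((idealMap ψ I I' h a : I') : B') = ψ a := rfl

theorem idealMap_smul (h : I.map ψ ≤ I') (b : B) (a : I) :
    idealMap ψ I I' h (b • a) = ψ b • idealMap ψ I I' h a :=
  Subtype.ext (map_mul ψ _ _)

theorem span_range_idealMap (h : I.map ψ = I') :
    Submodule.span B' (Set.range (idealMap ψ I I' h.le)) = ⊤ := by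
  rw [eq_top_iff]
  rintro ⟨y, hy⟩ -
  have hy' : y ∈ Ideal.span (ψ '' (I : Set B)) := by
    have : y ∈ I.map ψ := h ▸ hy
    exact this
  have key : ∀ z (hz : z ∈ Ideal.span (ψ '' (I : Set B))) (hz' : z ∈ I'),
      (⟨z, hz'⟩ : I') ∈ Submodule.span B' (Set.range (idealMap ψ I I' h.le)) := by
    intro z hz
    refine Submodule.span_induction (p := fun z _ => ∀ hz' : z ∈ I',
      (⟨z, hz'⟩ : I') ∈ Submodule.span B' (Set.range (idealMap ψ I I' h.le))) ?_ ?_ ?_ ?_ hz
    · rintro _ ⟨a, ha, rfl⟩ hz'
      exact Submodule.subset_span ⟨⟨a, ha⟩, rfl⟩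
    · intro hz'
      exact Submodule.zero_mem _
    · intro x y hx hy ihx ihy hz'
      have hx' : x ∈ I' := h ▸ hx
      have hy' : y ∈ I' := h ▸ hy
      exact Submodule.add_mem _ (ihx hx') (ihy hy')
    · intro b x hx ihx hz'
      have hx' : x ∈ I' := h ▸ hx
      exact Submodule.smul_mem _ b (ihx hx')
  exact key y hy' hy

/-- Base change of an invertible ideal whose extension is invertible: `I → I.map ψ` is
universal. -/
theorem semiUniv_idealMap (h : I.map ψ = I') [Module.Invertible B I] [Module.Invertible B' I'] :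
    SemiUniv ψ (idealMap ψ I I' h.le) :=
  semiUniv_of_invertible_of_span _ (idealMap_smul ψ I I' h.le) (span_range_idealMap ψ I I' h)

variable {N N' : Type u} [AddCommGroup N] [Module B N] [AddCommGroup N'] [Module B' N']
  (j : N →+ N') (hjs : ∀ (b : B) (n : N), j (b • n) = ψ b • j n)

include hjs in
theorem map_mem_smul_top (h : I.map ψ ≤ I') (n : N) (hn : n ∈ I • (⊤ : Submodule B N)) :
    j n ∈ I' • (⊤ : Submodule B' N') := by
  refine Submodule.smul_induction_on hn ?_ ?_
  · intro a ha m _
    rw [hjs]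
    exact Submodule.smul_mem_smul (h (Ideal.mem_map_of_mem ψ ha)) Submodule.mem_top
  · intro x y hx hy
    rw [map_add]
    exact Submodule.add_mem _ hx hy

/-- The restriction of a semilinear map `j : N → N'` to `I • N → I' • N'`. -/
def smulTopMap (h : I.map ψ ≤ I') :
    ↥(I • (⊤ : Submodule B N)) →+ ↥(I' • (⊤ : Submodule B' N')) where
  toFun n := ⟨j n, map_mem_smul_top ψ I I' j hjs h n n.2⟩
  map_zero' := Subtype.ext (map_zero j)
  map_add' _ _ := Subtype.ext (map_add j _ _)

@[simp] theorem smulTopMap_coe (h : I.map ψ ≤ I') (n : ↥(I • (⊤ : Submodule B N))) :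
    ((smulTopMap ψ I I' j hjs h n : ↥(I' • (⊤ : Submodule B' N'))) : N') = j n := rfl

theorem smulTopMap_smul (h : I.map ψ ≤ I') (b : B) (n : ↥(I • (⊤ : Submodule B N))) :
    smulTopMap ψ I I' j hjs h (b • n) = ψ b • smulTopMap ψ I I' j hjs h n :=
  Subtype.ext (hjs b n)

theorem span_range_smulTopMap (h : I.map ψ = I')
    (hj : Submodule.span B' (Set.range j) = ⊤) :
    Submodule.span B' (Set.range (smulTopMap ψ I I' j hjs h.le)) = ⊤ := by
  set S : Submodule B' N' :=
    (Submodule.span B' (Set.range (smulTopMap ψ I I' j hjs h.le))).map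
      (I' • (⊤ : Submodule B' N')).subtype with hS
  -- generators `ψ a • j n` lie in `S`
  have h1 : ∀ a ∈ I, ∀ n : N, ψ a • j n ∈ S := by
    intro a ha n
    refine ⟨smulTopMap ψ I I' j hjs h.le ⟨a • n, Submodule.smul_mem_smul ha Submodule.mem_top⟩,
      Submodule.subset_span ⟨_, rfl⟩, ?_⟩
    simp [hjs]
  -- `a' • j n ∈ S` for `a' ∈ I'`
  have h2 : ∀ a' ∈ I', ∀ n : N, a' • j n ∈ S := by
    intro a' ha' n
    have ha'' : a' ∈ Ideal.span (ψ '' (I : Set B)) := by
      have : a' ∈ I.map ψ := h ▸ ha'
      exact this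
    refine Submodule.span_induction (p := fun a' _ => a' • j n ∈ S) ?_ ?_ ?_ ?_ ha''
    · rintro _ ⟨a, ha, rfl⟩
      exact h1 a ha n
    · rw [zero_smul]; exact Submodule.zero_mem _
    · intro x y _ _ hx hy
      rw [add_smul]; exact Submodule.add_mem _ hx hy
    · intro b x _ hx
      rw [smul_eq_mul, mul_smul]; exact Submodule.smul_mem _ b hx
  -- `a' • n' ∈ S` for `a' ∈ I'`, all `n'`
  have h3 : ∀ a' ∈ I', ∀ n' : N', a' • n' ∈ S := by
    intro a' ha' n'
    have hn' : n' ∈ Submodule.span B' (Set.range j) := by rw [hj]; trivial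
    refine Submodule.span_induction (p := fun n' _ => a' • n' ∈ S) ?_ ?_ ?_ ?_ hn'
    · rintro _ ⟨n, rfl⟩
      exact h2 a' ha' n
    · rw [smul_zero]; exact Submodule.zero_mem _
    · intro x y _ _ hx hy
      rw [smul_add]; exact Submodule.add_mem _ hx hy
    · intro b x _ hx
      rw [smul_comm]; exact Submodule.smul_mem _ b hx
  have h4 : I' • (⊤ : Submodule B' N') ≤ S := by
    rw [Submodule.smul_le]
    intro a' ha' n' _
    exact h3 a' ha' n'
  rw [eq_top_iff]
  rintro ⟨y, hy⟩ -
  obtain ⟨z, hz, hzy⟩ := h4 hy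
  have : z = ⟨y, hy⟩ := Subtype.ext hzy
  rw [← this]
  exact hz

/-- Base change of `I • N` for invertible ideals `I`, `I' = I.map ψ` and invertible modules
`N`, `N'`, along a semilinear map `j : N → N'` generating `N'`. -/
theorem semiUniv_smulTopMap (h : I.map ψ = I') [Module.Invertible B I] [Module.Invertible B' I']
    [Module.Invertible B N] [Module.Invertible B' N']
    (hj : Submodule.span B' (Set.range j) = ⊤) :
    SemiUniv ψ (smulTopMap ψ I I' j hjs h.le) := by
  haveI := invertible_smul_top I N
  haveI := invertible_smul_top I' N'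
  exact semiUniv_of_invertible_of_span _ (smulTopMap_smul ψ I I' j hjs h.le)
    (span_range_smulTopMap ψ I I' j hjs h hj)

end ideal

end Fermat.Agent.S25.Lib.InvSpan
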